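/-
S20, component (A2), part 2: the period lattice `c (ℤ z + ℤ)` and its invariants in terms of
the Eisenstein series `E₄`, `E₆`.
(helper43)
-/
import Mathlib.NumberTheory.ModularForms.LevelOne.DimensionFormula
import Mathlib.Analysis.SpecialFunctions.Elliptic.Weierstrass

set_option autoImplicit false

namespace Fermat.Agent.S20

open UpperHalfPlane ModularForm EisensteinSeries
open scoped MatrixGroups ModularForm Manifold

/-- The period pair `(c z, c)` attached to `z ∈ ℍ` and a nonzero scalar `c`. -/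
noncomputable def jPeriodPair (z : ℍ) (c : ℂ) (hc : c ≠ 0) : PeriodPair where
  ω₁ := c * z
  ω₂ := c
  indep := by
    rw [LinearIndependent.pair_iff]
    intro s t h
    have h1 : c * ((s : ℂ) * z + t) = 0 := by
      simp only [Complex.real_smul] at h
      linear_combination h
    have h2 : (s : ℂ) * z + t = 0 := by
      rcases mul_eq_zero.mp h1 with h | h
      · exact absurd h hc
      · exact h
    have h3 := congrArg Complex.im h2
    simp only [Complex.add_im, Complex.mul_im, Complex.ofReal_re, Complex.ofReal_im,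
      zero_mul, add_zero, Complex.zero_im, UpperHalfPlane.coe_im] at h3
    have hs : s = 0 := by
      rcases mul_eq_zero.mp h3 with h | h
      · exact h
      · exact absurd h z.im_ne_zero
    refine ⟨hs, ?_⟩
    rw [hs] at h2
    simpa using h2

@[simp] lemma jPeriodPair_ω₁ (z : ℍ) (c : ℂ) (hc : c ≠ 0) :
    (jPeriodPair z c hc).ω₁ = c * z := rfl

@[simp] lemma jPeriodPair_ω₂ (z : ℍ) (c : ℂ) (hc : c ≠ 0) :
    (jPeriodPair z c hc).ω₂ = c := rfl

/-- The lattice sum `G_k` of `c (ℤ z + ℤ)` in terms of the Eisenstein summands. -/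
lemma jPeriodPair_G_eq_tsum (z : ℍ) (c : ℂ) (hc : c ≠ 0) (k : ℕ) :
    (jPeriodPair z c hc).G k = (c ^ k)⁻¹ * ∑' v : Fin 2 → ℤ, eisSummand k v z := by
  rw [PeriodPair.G, ← (jPeriodPair z c hc).latticeEquivProd.symm.toEquiv.tsum_eq,
    ← (finTwoArrowEquiv ℤ).tsum_eq, ← tsum_mul_left]
  refine tsum_congr fun v => ?_
  simp only [LinearEquiv.coe_toEquiv, PeriodPair.latticeEquiv_symm_apply, jPeriodPair_ω₁,
    jPeriodPair_ω₂, finTwoArrowEquiv_apply, eisSummand, zpow_neg, zpow_natCast]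
  rw [← mul_inv, ← mul_pow]
  congr 2
  simp only [piFinTwoEquiv, Equiv.toFun_as_coe, Equiv.coe_fn_mk]
  ring

/-- The lattice sum `G_k` of `c (ℤ z + ℤ)` in terms of `E_k`. -/
lemma jPeriodPair_G_eq (z : ℍ) (c : ℂ) (hc : c ≠ 0) {k : ℕ} (hk : 3 ≤ k) :
    (jPeriodPair z c hc).G k = (c ^ k)⁻¹ * (2 * riemannZeta k * E hk z) := by
  rw [jPeriodPair_G_eq_tsum, tsum_eisSummand_eq_riemannZeta_mul_eisensteinSeries hk]
  have hE : E hk z = (1 / 2 : ℂ) • eisensteinSeries (N := 1) 0 k z := rfl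
  rw [hE, smul_eq_mul]
  ring

lemma jPeriodPair_g₂ (z : ℍ) (c : ℂ) (hc : c ≠ 0) :
    (jPeriodPair z c hc).g₂ = 120 * riemannZeta 4 * ((c ^ 4)⁻¹ * E₄ z) := by
  rw [PeriodPair.g₂, jPeriodPair_G_eq z c hc (by norm_num : 3 ≤ 4)]
  push_cast
  ring

lemma jPeriodPair_g₃ (z : ℍ) (c : ℂ) (hc : c ≠ 0) :
    (jPeriodPair z c hc).g₃ = 280 * riemannZeta 6 * ((c ^ 6)⁻¹ * E₆ z) := by
  rw [PeriodPair.g₃, jPeriodPair_G_eq z c hc (by norm_num : 3 ≤ 6)]
  push_cast
  ring

end Fermat.Agent.S20
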