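/-
S20, component (A2), part 1: a period lattice is determined by its invariants `g₂`, `g₃`.
(helper43)
-/
import Mathlib.Analysis.SpecialFunctions.Elliptic.Weierstrass

set_option autoImplicit false

namespace Fermat.Agent.S20

open Filter Topology
open scoped PeriodPair

variable (L L' : PeriodPair)

/-- Near `0` (excluding `0`), `z² ℘(z) = z² ℘[L-0](z) + 1`. -/
lemma wp_aux_sq_mul (z : ℂ) (hz : z ≠ 0) :
    z ^ 2 * ℘[L] z = z ^ 2 * ℘[L - (0 : ℂ)] z + 1 := by
  have h := L.weierstrassPExcept_def 0 z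
  simp only [ZeroMemClass.coe_zero, sub_zero] at h
  rw [h]
  field_simp
  ring

/-- Near `0` (excluding `0`), `z³ ℘'(z) = z³ ℘'[L-0](z) - 2`. -/
lemma wp_aux_cube_mul (z : ℂ) (hz : z ≠ 0) :
    z ^ 3 * ℘'[L] z = z ^ 3 * ℘'[L - (0 : ℂ)] z - 2 := by
  have h := L.derivWeierstrassPExcept_def 0 z
  simp only [ZeroMemClass.coe_zero, sub_zero] at h
  rw [h]
  field_simp
  ring

/-- The differential equation multiplied by `z⁶`, in terms of the regular parts. -/
lemma wp_aux_ode (z : ℂ) (hz : z ∉ L.lattice) :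
    (z ^ 3 * ℘'[L - (0 : ℂ)] z - 2) ^ 2 =
      4 * (z ^ 2 * ℘[L - (0 : ℂ)] z + 1) ^ 3 - L.g₂ * z ^ 4 * (z ^ 2 * ℘[L - (0 : ℂ)] z + 1)
        - L.g₃ * z ^ 6 := by
  have hz0 : z ≠ 0 := by
    rintro rfl
    exact hz (zero_mem _)
  rw [← wp_aux_sq_mul L z hz0, ← wp_aux_cube_mul L z hz0]
  have h := L.derivWeierstrassP_sq z hz
  linear_combination z ^ 6 * h

/-- Eventually near `0` (punctured), points are not in the lattice. -/
lemma wp_aux_eventually_notMem : ∀ᶠ z in 𝓝[≠] (0 : ℂ), z ∉ L.lattice := by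
  have h := L.compl_lattice_sdiff_singleton_mem_nhds 0
  filter_upwards [mem_nhdsWithin_of_mem_nhds h, self_mem_nhdsWithin] with z hz hz0
  intro hzL
  exact hz ⟨hzL, hz0⟩

/-- The regular parts at `0` of two Weierstrass functions with the same invariants agree
near `0`. -/
lemma wp_except_eventuallyEq (h₂ : L.g₂ = L'.g₂) (h₃ : L.g₃ = L'.g₃) :
    ∀ᶠ z in 𝓝 (0 : ℂ), ℘[L - (0 : ℂ)] z - ℘[L' - (0 : ℂ)] z = 0 := by
  set a : ℂ → ℂ := ℘[L - (0 : ℂ)] with ha
  set b : ℂ → ℂ := ℘[L' - (0 : ℂ)] with hb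
  set a' : ℂ → ℂ := ℘'[L - (0 : ℂ)] with ha'
  set b' : ℂ → ℂ := ℘'[L' - (0 : ℂ)] with hb'
  have haA : AnalyticAt ℂ a 0 := L.analyticAt_weierstrassPExcept 0
  have hbA : AnalyticAt ℂ b 0 := L'.analyticAt_weierstrassPExcept 0
  have ha'A : AnalyticAt ℂ a' 0 := L.analyticAt_derivWeierstrassPExcept 0
  have hb'A : AnalyticAt ℂ b' 0 := L'.analyticAt_derivWeierstrassPExcept 0
  have hdA : AnalyticAt ℂ (fun z => a z - b z) 0 := haA.sub hbA
  by_contra hne
  obtain ⟨n, g, hgA, hg0, hfac⟩ := (hdA.exists_eventuallyEq_pow_smul_nonzero_iff).mpr hne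
  simp only [sub_zero, smul_eq_mul] at hfac
  -- derivative of `d`
  have hderiv_d : ∀ᶠ z in 𝓝[≠] (0 : ℂ), deriv (fun z => a z - b z) z = a' z - b' z := by
    have h1 := L.compl_lattice_sdiff_singleton_mem_nhds 0
    have h2 := L'.compl_lattice_sdiff_singleton_mem_nhds 0
    filter_upwards [mem_nhdsWithin_of_mem_nhds h1, mem_nhdsWithin_of_mem_nhds h2] with z hz1 hz2
    have e1 : deriv a z = a' z := L.eqOn_deriv_weierstrassPExcept_derivWeierstrassPExcept 0 hz1
    have e2 : deriv b z = b' z := L'.eqOn_deriv_weierstrassPExcept_derivWeierstrassPExcept 0 hz2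
    have d1 : DifferentiableAt ℂ a z :=
      (L.differentiableOn_weierstrassPExcept 0).differentiableAt
        (L.isOpen_compl_lattice_sdiff.mem_nhds hz1)
    have d2 : DifferentiableAt ℂ b z :=
      (L'.differentiableOn_weierstrassPExcept 0).differentiableAt
        (L'.isOpen_compl_lattice_sdiff.mem_nhds hz2)
    rw [deriv_fun_sub d1 d2, e1, e2]
  have hderiv_fac : ∀ᶠ z in 𝓝 (0 : ℂ), deriv (fun z => a z - b z) z =
      (n : ℂ) * z ^ (n - 1) * g z + z ^ n * deriv g z := by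
    have hev : ∀ᶠ z in 𝓝 (0 : ℂ), (fun z => a z - b z) =ᶠ[𝓝 z] fun z => z ^ n * g z :=
      hfac.eventually_nhds
    filter_upwards [hev, hgA.eventually_analyticAt] with z hz hgz
    rw [hz.deriv_eq]
    have hd1 : DifferentiableAt ℂ (fun z : ℂ => z ^ n) z := by fun_prop
    rw [deriv_fun_mul hd1 hgz.differentiableAt]
    simp
  -- the key identity on a punctured neighbourhood
  have hkey : ∀ᶠ z in 𝓝[≠] (0 : ℂ),
      ((n : ℂ) * g z + z * deriv g z) * (z ^ 3 * (a' z + b' z) - 4) -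
        g z * (4 * ((z ^ 2 * a z + 1) ^ 2 + (z ^ 2 * a z + 1) * (z ^ 2 * b z + 1)
          + (z ^ 2 * b z + 1) ^ 2) - L.g₂ * z ^ 4) = 0 := by
    filter_upwards [hderiv_d, mem_nhdsWithin_of_mem_nhds hderiv_fac,
      mem_nhdsWithin_of_mem_nhds hfac, wp_aux_eventually_notMem L, wp_aux_eventually_notMem L',
      self_mem_nhdsWithin] with z hz1 hz2 hz3 hzL hzL' hz0
    have hz0' : z ≠ 0 := hz0
    have o1 := wp_aux_ode L z hzL
    have o2 := wp_aux_ode L' z hzL'
    rw [← h₂, ← h₃] at o2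
    change (z ^ 3 * a' z - 2) ^ 2 = 4 * (z ^ 2 * a z + 1) ^ 3 - L.g₂ * z ^ 4 * (z ^ 2 * a z + 1)
        - L.g₃ * z ^ 6 at o1
    change (z ^ 3 * b' z - 2) ^ 2 = 4 * (z ^ 2 * b z + 1) ^ 3 - L.g₂ * z ^ 4 * (z ^ 2 * b z + 1)
        - L.g₃ * z ^ 6 at o2
    rw [hz1] at hz2
    -- hz2 : a' z - b' z = n z^(n-1) g z + z^n g' z ; hz3 : a z - b z = z^n g z
    have hzn : z * ((n : ℂ) * z ^ (n - 1)) = (n : ℂ) * z ^ n := by
      rcases n with _ | m
      · simp
      · simp only [Nat.add_sub_cancel]; ring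
    have e1 : z * (a' z - b' z) = z ^ n * ((n : ℂ) * g z + z * deriv g z) := by
      rw [hz2]
      linear_combination (g z) * hzn
    have hzn0 : z ^ n ≠ 0 := pow_ne_zero _ hz0'
    have hz20 : z ^ 2 ≠ 0 := pow_ne_zero _ hz0'
    apply mul_left_cancel₀ (mul_ne_zero hz20 hzn0)
    rw [mul_zero]
    linear_combination (-(z ^ 2 * (z ^ 3 * (a' z + b' z) - 4))) * e1
      + (z ^ 2 * (4 * ((z ^ 2 * a z + 1) ^ 2 + (z ^ 2 * a z + 1) * (z ^ 2 * b z + 1)
          + (z ^ 2 * b z + 1) ^ 2) - L.g₂ * z ^ 4)) * hz3 + o1 - o2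
  -- continuity at 0 gives the value at 0
  set F : ℂ → ℂ := fun z => ((n : ℂ) * g z + z * deriv g z) * (z ^ 3 * (a' z + b' z) - 4) -
        g z * (4 * ((z ^ 2 * a z + 1) ^ 2 + (z ^ 2 * a z + 1) * (z ^ 2 * b z + 1)
          + (z ^ 2 * b z + 1) ^ 2) - L.g₂ * z ^ 4) with hF
  have hFc : ContinuousAt F 0 := by
    have c1 : ContinuousAt g 0 := hgA.continuousAt
    have c2 : ContinuousAt (deriv g) 0 := hgA.deriv.continuousAt
    have c3 : ContinuousAt a 0 := haA.continuousAt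
    have c4 : ContinuousAt b 0 := hbA.continuousAt
    have c5 : ContinuousAt a' 0 := ha'A.continuousAt
    have c6 : ContinuousAt b' 0 := hb'A.continuousAt
    simp only [hF]
    fun_prop
  have hF0 : F 0 = 0 := by
    by_contra hF0
    have h1 : ∀ᶠ z in 𝓝[≠] (0 : ℂ), F z ≠ 0 :=
      mem_nhdsWithin_of_mem_nhds (hFc.eventually_ne hF0)
    have h2 : ∀ᶠ z in 𝓝[≠] (0 : ℂ), False := by
      filter_upwards [h1, hkey] with z hz1 hz2
      exact hz1 hz2
    exact (h2.exists).elim fun _ h => h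
  simp only [hF] at hF0
  have ha0 : a 0 = 0 := L.weierstrassPExcept_zero 0
  have hb0 : b 0 = 0 := L'.weierstrassPExcept_zero 0
  rw [ha0, hb0] at hF0
  have hF0' : g 0 * (-(4 * (n : ℂ) + 12)) = 0 := by linear_combination hF0
  rcases mul_eq_zero.mp hF0' with h | h
  · exact hg0 h
  · have h3 : ((4 * n + 12 : ℕ) : ℂ) = 0 := by push_cast; linear_combination -h
    have h4 : (4 * n + 12 : ℕ) = 0 := by exact_mod_cast h3
    omega

end Fermat.Agent.S20

namespace Fermat.Agent.S20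

open Filter Topology
open scoped PeriodPair

variable (L L' : PeriodPair)

/-- Two Weierstrass functions with the same invariants agree on a punctured neighbourhood
of `0`. -/
lemma wp_eventuallyEq_zero (h₂ : L.g₂ = L'.g₂) (h₃ : L.g₃ = L'.g₃) :
    ∀ᶠ z in 𝓝[≠] (0 : ℂ), ℘[L] z = ℘[L'] z := by
  filter_upwards [mem_nhdsWithin_of_mem_nhds (wp_except_eventuallyEq L L' h₂ h₃)] with z hz
  have e1 := L.weierstrassPExcept_add 0 z
  have e2 := L'.weierstrassPExcept_add 0 z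
  simp only [ZeroMemClass.coe_zero] at e1 e2
  rw [← e1, ← e2]
  linear_combination hz

lemma wp_lattice_countable : (L.lattice : Set ℂ).Countable := by
  have : Countable L.lattice := Countable.of_equiv _ L.latticeEquivProd.toEquiv.symm
  exact Set.countable_coe_iff.mp this

lemma wp_isPreconnected_compl_union :
    IsPreconnected ((L.lattice : Set ℂ) ∪ (L'.lattice : Set ℂ))ᶜ := by
  have hc : ((L.lattice : Set ℂ) ∪ (L'.lattice : Set ℂ)).Countable :=
    (wp_lattice_countable L).union (wp_lattice_countable L')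
  have hr : 1 < Module.rank ℝ ℂ := by
    rw [Complex.rank_real_complex]
    norm_num
  exact (hc.isPathConnected_compl_of_one_lt_rank hr).isConnected.isPreconnected

/-- Two Weierstrass functions with the same invariants agree away from the two lattices. -/
lemma wp_eqOn_compl_union (h₂ : L.g₂ = L'.g₂) (h₃ : L.g₃ = L'.g₃) :
    Set.EqOn ℘[L] ℘[L'] ((L.lattice : Set ℂ) ∪ (L'.lattice : Set ℂ))ᶜ := by
  have hA : AnalyticOnNhd ℂ ℘[L] ((L.lattice : Set ℂ) ∪ (L'.lattice : Set ℂ))ᶜ :=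
    L.analyticOnNhd_weierstrassP.mono (by
      intro z hz hzL
      exact hz (Or.inl hzL))
  have hA' : AnalyticOnNhd ℂ ℘[L'] ((L.lattice : Set ℂ) ∪ (L'.lattice : Set ℂ))ᶜ :=
    L'.analyticOnNhd_weierstrassP.mono (by
      intro z hz hzL
      exact hz (Or.inr hzL))
  -- find a point near `0` where the two functions agree on a neighbourhood
  have hev : ∀ᶠ z in 𝓝[≠] (0 : ℂ), ℘[L] z = ℘[L'] z ∧ z ∉ L.lattice ∧ z ∉ L'.lattice := by
    filter_upwards [wp_eventuallyEq_zero L L' h₂ h₃, wp_aux_eventually_notMem L,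
      wp_aux_eventually_notMem L'] with z h1 h2 h3
    exact ⟨h1, h2, h3⟩
  have hev2 : ∀ᶠ z in 𝓝[≠] (0 : ℂ), ∀ᶠ w in 𝓝 z, ℘[L] w = ℘[L'] w := by
    rw [eventually_nhdsWithin_iff] at hev ⊢
    have := hev.eventually_nhds
    filter_upwards [this] with z hz hz0
    have hz0' : ∀ᶠ w in 𝓝 z, w ∈ ({0}ᶜ : Set ℂ) := isOpen_compl_singleton.mem_nhds hz0
    filter_upwards [hz, hz0'] with w hw hw0
    exact (hw hw0).1
  obtain ⟨z₀, ⟨_, hz₀L, hz₀L'⟩, hz₀⟩ := (hev.and hev2).exists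
  refine hA.eqOn_of_preconnected_of_eventuallyEq hA' (wp_isPreconnected_compl_union L L')
    (z₀ := z₀) ?_ hz₀
  rintro (h | h)
  · exact hz₀L h
  · exact hz₀L' h

/-- A period lattice is determined by `g₂` and `g₃`: one inclusion. -/
theorem lattice_le_of_g₂_g₃ (h₂ : L.g₂ = L'.g₂) (h₃ : L.g₃ = L'.g₃) :
    L.lattice ≤ L'.lattice := by
  intro l hl
  by_contra hl'
  have hEq := wp_eqOn_compl_union L L' h₂ h₃
  have h1 : (↑L.lattice \ {l} : Set ℂ)ᶜ ∈ 𝓝 l := L.compl_lattice_sdiff_singleton_mem_nhds l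
  have h2 : (↑L'.lattice : Set ℂ)ᶜ ∈ 𝓝 l := L'.isClosed_lattice.isOpen_compl.mem_nhds hl'
  have hcongr : ℘[L] =ᶠ[𝓝[≠] l] ℘[L'] := by
    filter_upwards [mem_nhdsWithin_of_mem_nhds h1, mem_nhdsWithin_of_mem_nhds h2,
      self_mem_nhdsWithin] with z hz1 hz2 hz3
    apply hEq
    rintro (h | h)
    · exact hz1 ⟨h, hz3⟩
    · exact hz2 h
  have ho := meromorphicOrderAt_congr hcongr
  rw [L.order_weierstrassP l hl] at ho
  have hA : AnalyticAt ℂ ℘[L'] l := L'.analyticOnNhd_weierstrassP l hl'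
  have hnn : 0 ≤ meromorphicOrderAt ℘[L'] l := hA.meromorphicOrderAt_nonneg
  rw [← ho] at hnn
  exact absurd hnn (by decide)

/-- A period lattice is determined by `g₂` and `g₃`. -/
theorem lattice_eq_of_g₂_g₃ (h₂ : L.g₂ = L'.g₂) (h₃ : L.g₃ = L'.g₃) :
    L.lattice = L'.lattice :=
  le_antisymm (lattice_le_of_g₂_g₃ L L' h₂ h₃) (lattice_le_of_g₂_g₃ L' L h₂.symm h₃.symm)

end Fermat.Agent.S20
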