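/-
S20, component (A2), part 3: from equality of lattices to an element of `SL(2,ℤ)`, and the
algebra producing the scaling factor.
(helper43)
-/
import Fermat.Agent.S20.JInjective.WeierstrassUnique
import Fermat.Agent.S20.JInjective.Lattice
import Mathlib.Analysis.Complex.Polynomial.Basic

set_option autoImplicit false

namespace Fermat.Agent.S20

open UpperHalfPlane ModularForm EisensteinSeries
open scoped MatrixGroups ModularForm Manifold

/-- Integer relation `a w + b = 0` with `w ∈ ℍ` forces `a = b = 0`. -/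
lemma jinj_int_rel (w : ℍ) (a b : ℤ) (h : (a : ℂ) * w + b = 0) : a = 0 ∧ b = 0 := by
  have h3 := congrArg Complex.im h
  simp only [Complex.add_im, Complex.mul_im, Complex.intCast_re, Complex.intCast_im,
    zero_mul, add_zero, Complex.zero_im, UpperHalfPlane.coe_im] at h3
  have ha : a = 0 := by
    rcases mul_eq_zero.mp h3 with h | h
    · exact_mod_cast h
    · exact absurd h w.im_ne_zero
  refine ⟨ha, ?_⟩
  rw [ha] at h
  simpa using h

/-- If `ℤ w + ℤ = c (ℤ z + ℤ)` then `w ∈ SL(2,ℤ) z`. -/
theorem jinj_exists_smul_eq_of_lattice_eq (z w : ℍ) (c : ℂ) (hc : c ≠ 0)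
    (h : (jPeriodPair w 1 one_ne_zero).lattice = (jPeriodPair z c hc).lattice) :
    ∃ g : SL(2, ℤ), g • z = w := by
  have hw1 : (w : ℂ) ∈ (jPeriodPair z c hc).lattice := by
    rw [← h]
    have := (jPeriodPair w 1 one_ne_zero).ω₁_mem_lattice
    simpa using this
  have hw2 : (1 : ℂ) ∈ (jPeriodPair z c hc).lattice := by
    rw [← h]
    exact (jPeriodPair w 1 one_ne_zero).ω₂_mem_lattice
  have hz1 : c * (z : ℂ) ∈ (jPeriodPair w 1 one_ne_zero).lattice := by
    rw [h]
    exact (jPeriodPair z c hc).ω₁_mem_lattice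
  have hz2 : c ∈ (jPeriodPair w 1 one_ne_zero).lattice := by
    rw [h]
    exact (jPeriodPair z c hc).ω₂_mem_lattice
  obtain ⟨m, n, e1⟩ := PeriodPair.mem_lattice.mp hw1
  obtain ⟨m', n', e2⟩ := PeriodPair.mem_lattice.mp hw2
  obtain ⟨p, q, e3⟩ := PeriodPair.mem_lattice.mp hz1
  obtain ⟨p', q', e4⟩ := PeriodPair.mem_lattice.mp hz2
  simp only [jPeriodPair_ω₁, jPeriodPair_ω₂, one_mul, mul_one] at e1 e2 e3 e4
  -- the two matrices are inverse to each other
  have r1 : ((m * p + n * p' - 1 : ℤ) : ℂ) * w + ((m * q + n * q' : ℤ) : ℂ) = 0 := by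
    push_cast
    linear_combination (m : ℂ) * e3 + (n : ℂ) * e4 + e1
  have r2 : ((m' * p + n' * p' : ℤ) : ℂ) * w + ((m' * q + n' * q' - 1 : ℤ) : ℂ) = 0 := by
    push_cast
    linear_combination (m' : ℂ) * e3 + (n' : ℂ) * e4 + e2
  obtain ⟨s1, s2⟩ := jinj_int_rel w _ _ r1
  obtain ⟨s3, s4⟩ := jinj_int_rel w _ _ r2
  have hdet : (m * n' - n * m') * (p * q' - q * p') = 1 := by
    linear_combination (m' * q + n' * q') * s1 + s4 - (m' * p + n' * p') * s2
  -- numerators and denominators
  have hden : c * ((m' : ℂ) * z + n') = 1 := by linear_combination e2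
  have hnum : c * ((m : ℂ) * z + n) = w := by linear_combination e1
  have hden0 : (m' : ℂ) * z + n' ≠ 0 := by
    intro h0
    rw [h0, mul_zero] at hden
    exact zero_ne_one hden
  have hquot : (w : ℂ) * ((m' : ℂ) * z + n') = (m : ℂ) * z + n := by
    have : c * ((w : ℂ) * ((m' : ℂ) * z + n')) = c * ((m : ℂ) * z + n) := by
      linear_combination (w : ℂ) * hden - hnum
    exact mul_left_cancel₀ hc this
  -- positivity of the determinant
  have hpos : 0 < ((m * n' - n * m' : ℤ) : ℝ) := by
    have key : ((m * n' - n * m' : ℤ) : ℝ) * z.im =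
        w.im * Complex.normSq ((m' : ℂ) * z + n') := by
      have h1 := congrArg Complex.im
        (congrArg (fun x => x * (starRingEnd ℂ) ((m' : ℂ) * z + n')) hquot)
      simp only [mul_assoc, Complex.mul_conj] at h1
      have h2 : ((w : ℂ) * (Complex.normSq ((m' : ℂ) * z + n') : ℂ)).im =
          w.im * Complex.normSq ((m' : ℂ) * z + n') := by
        rw [Complex.im_mul_ofReal]
        rfl
      rw [h2] at h1
      rw [h1]
      simp only [map_add, map_mul, map_intCast, Complex.add_im, Complex.mul_im,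
        Complex.add_re, Complex.mul_re, Complex.intCast_re, Complex.intCast_im, Complex.conj_re,
        Complex.conj_im, UpperHalfPlane.coe_im, UpperHalfPlane.coe_re]
      push_cast
      ring
    have hn : 0 < Complex.normSq ((m' : ℂ) * z + n') := Complex.normSq_pos.mpr hden0
    have hr : 0 < w.im * Complex.normSq ((m' : ℂ) * z + n') := mul_pos w.im_pos hn
    rw [← key] at hr
    exact (pos_iff_pos_of_mul_pos hr).mpr z.im_pos
  have hposZ : 0 < m * n' - n * m' := by exact_mod_cast hpos
  have hD : m * n' - n * m' = 1 := by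
    rcases Int.eq_one_or_neg_one_of_mul_eq_one hdet with h | h
    · exact h
    · omega
  have hg : ∃ g : SL(2, ℤ), (g : Matrix (Fin 2) (Fin 2) ℤ) = !![m, n; m', n'] :=
    ⟨⟨!![m, n; m', n'], by rw [Matrix.det_fin_two_of]; linear_combination hD⟩, rfl⟩
  obtain ⟨g, hg⟩ := hg
  refine ⟨g, ?_⟩
  apply UpperHalfPlane.ext
  rw [UpperHalfPlane.coe_specialLinearGroup_apply, hg]
  simp only [Matrix.of_apply, Matrix.cons_val', Matrix.cons_val_zero, Matrix.cons_val_one,
    Matrix.cons_val_fin_one, algebraMap_int_eq, Int.coe_castRingHom, Complex.ofReal_intCast]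
  rw [div_eq_iff hden0]
  exact hquot.symm

/-- The algebra producing the scaling factor `l` with `A' = l⁴ A`, `B' = l⁶ B`. -/
lemma jinj_exists_scaling (A B A' B' : ℂ) (hΔ : A ^ 3 - B ^ 2 ≠ 0) (hΔ' : A' ^ 3 - B' ^ 2 ≠ 0)
    (h : A ^ 3 * B' ^ 2 = A' ^ 3 * B ^ 2) :
    ∃ l : ℂ, l ≠ 0 ∧ A' = l ^ 4 * A ∧ B' = l ^ 6 * B := by
  by_cases hA : A = 0
  · -- then `B ≠ 0`, `A' = 0`, `B' ≠ 0`
    have hB : B ≠ 0 := by
      rintro rfl
      apply hΔ
      rw [hA]
      ring
    have hA' : A' = 0 := by
      rw [hA] at h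
      have : A' ^ 3 * B ^ 2 = 0 := by rw [← h]; ring
      rcases mul_eq_zero.mp this with h1 | h1
      · exact pow_eq_zero_iff (by norm_num) |>.mp h1
      · exact absurd (pow_eq_zero_iff (by norm_num) |>.mp h1) hB
    have hB' : B' ≠ 0 := by
      rintro rfl
      apply hΔ'
      rw [hA']
      ring
    obtain ⟨l, hl⟩ := IsAlgClosed.exists_pow_nat_eq (B' / B) (n := 6) (by norm_num)
    refine ⟨l, ?_, ?_, ?_⟩
    · rintro rfl
      rw [zero_pow (by norm_num)] at hl
      exact div_ne_zero hB' hB hl.symm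
    · rw [hA, hA', mul_zero]
    · rw [hl]
      field_simp
  · by_cases hB : B = 0
    · have hB' : B' = 0 := by
        rw [hB] at h
        have : A ^ 3 * B' ^ 2 = 0 := by rw [h]; ring
        rcases mul_eq_zero.mp this with h1 | h1
        · exact absurd (pow_eq_zero_iff (by norm_num) |>.mp h1) hA
        · exact pow_eq_zero_iff (by norm_num) |>.mp h1
      have hA' : A' ≠ 0 := by
        rintro rfl
        apply hΔ'
        rw [hB']
        ring
      obtain ⟨l, hl⟩ := IsAlgClosed.exists_pow_nat_eq (A' / A) (n := 4) (by norm_num)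
      refine ⟨l, ?_, ?_, ?_⟩
      · rintro rfl
        rw [zero_pow (by norm_num)] at hl
        exact div_ne_zero hA' hA hl.symm
      · rw [hl]
        field_simp
      · rw [hB, hB', mul_zero]
    · -- generic case
      have hA' : A' ≠ 0 := by
        rintro rfl
        have : A ^ 3 * B' ^ 2 = 0 := by rw [h]; ring
        rcases mul_eq_zero.mp this with h1 | h1
        · exact absurd (pow_eq_zero_iff (by norm_num) |>.mp h1) hA
        · apply hΔ'
          rw [pow_eq_zero_iff (by norm_num) |>.mp h1]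
          ring
      have hB' : B' ≠ 0 := by
        rintro rfl
        have : A' ^ 3 * B ^ 2 = 0 := by rw [← h]; ring
        rcases mul_eq_zero.mp this with h1 | h1
        · exact absurd (pow_eq_zero_iff (by norm_num) |>.mp h1) hA'
        · exact absurd (pow_eq_zero_iff (by norm_num) |>.mp h1) hB
      obtain ⟨l, hl⟩ := IsAlgClosed.exists_pow_nat_eq ((B' * A) / (B * A')) (n := 2) (by norm_num)
      have hl2 : l ^ 2 * (B * A') = B' * A := by
        rw [hl]
        field_simp
      refine ⟨l, ?_, ?_, ?_⟩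
      · rintro rfl
        rw [zero_pow (by norm_num)] at hl
        exact div_ne_zero (mul_ne_zero hB' hA) (mul_ne_zero hB hA') hl.symm
      · -- `l⁴ A = A'`
        have e : (l ^ 4 * A - A') * (B ^ 2 * A' ^ 2) = 0 := by
          linear_combination (l ^ 2 * (B * A') + B' * A) * A * hl2 + h
        rcases mul_eq_zero.mp e with h1 | h1
        · linear_combination -h1
        · exact absurd h1 (mul_ne_zero (pow_ne_zero _ hB) (pow_ne_zero _ hA'))
      · have e : (l ^ 6 * B - B') * (B ^ 3 * A' ^ 3) = 0 := by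
          linear_combination ((l ^ 2 * (B * A')) ^ 2 + (l ^ 2 * (B * A')) * (B' * A)
            + (B' * A) ^ 2) * B * hl2 + B * B' * h
        rcases mul_eq_zero.mp e with h1 | h1
        · linear_combination -h1
        · exact absurd h1 (mul_ne_zero (pow_ne_zero _ hB) (pow_ne_zero _ hA'))

end Fermat.Agent.S20
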